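import Fermat.Agent.AV.Cube.Rigid
import Fermat.Agent.AV.GenericOver
import Fermat.Agent.AV.Const.EvalPlace

/-!
# The theorem of the cube with one point on a curve through the origin

Specialising a generic pair of points to any pair reduces the statement to rigidity on the constant
extension of the curve to an algebraically closed field containing a generic pair.
-/

set_option autoImplicit false
set_option linter.unusedSectionVars false

noncomputable section

universe u

open Polynomial

namespace Fermat.Agent.AV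

open Fermat.Agent.AV.Const Fermat.Agent.EichlerShimura

variable {K : Type u} [Field K] [IsAlgClosed K] {S : Setting K}

/-- Every field over `K` has a place with values in `K`. -/
theorem exists_place_to_const (M : Type u) [Field M] [Algebra K M] : Nonempty (Place K M K) := by
  obtain ⟨A, -, hA⟩ := exists_isConstPlace_le (K := K) (⊤ : ValuationSubring M)
    fun _ => ValuationSubring.mem_top _
  exact ⟨constPlace A⟩

/-- A place of `M` with values in `K` extends to one where a given element outside the subfield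
vanishes. -/
theorem exists_place_vanishing {M N : Type u} [Field M] [Algebra K M] [Field N] [Algebra K N]
    (i : M →ₐ[K] N) (P : Place K M K) [IsConstPlace K P.val.sub] (y : N)
    (hy : ∀ p : M[X], p.eval₂ i.toRingHom y = 0 → p = 0) :
    ∃ (A : ValuationSubring N) (_ : IsConstPlace K A), y ∈ A.nonunits ∧
      ∀ a : S.Pt M, P.Maps S a 0 → RedZero A (S.map i a) := by
  let ev : P.val.sub[X] →+* N := eval₂RingHom (i.toRingHom.comp P.val.sub.subtype) y
  have hinj : Function.Injective ev := by
    rw [injective_iff_map_eq_zero]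
    intro p hp
    have h1 := hy (p.map P.val.sub.subtype) (by rw [eval₂_map]; exact hp)
    exact (Polynomial.map_eq_zero_iff Subtype.val_injective).mp h1
  let e : P.val.sub[X] ≃+* ev.range :=
    RingEquiv.ofBijective ev.rangeRestrict ⟨fun p q h => hinj (congrArg Subtype.val h),
      ev.rangeRestrict_surjective⟩
  let φ : ev.range →+* K :=
    ((valueA K P.val.sub).comp (evalRingHom 0)).comp e.symm.toRingHom
  have hφC : ∀ a : P.val.sub, ∃ h : i a ∈ ev.range, φ ⟨_, h⟩ = valueA K P.val.sub a := fun a => by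
    have h : ev (C a) = i a := by simp [ev]
    refine ⟨⟨C a, h⟩, ?_⟩
    have h' : e.symm ⟨i a, ⟨C a, h⟩⟩ = C a :=
      e.injective (by rw [e.apply_symm_apply]; exact Subtype.ext h.symm)
    simp [φ, h']
  have hK : ∀ k : K, algebraMap K N k ∈ ev.range := fun k => by
    rw [← i.commutes k]; exact (hφC (constA K P.val.sub k)).1
  obtain ⟨A, hAc, hmem, hval⟩ := exists_isConstPlace_of_hom ev.range φ hK fun k => by
    obtain ⟨h, hv⟩ := hφC (constA K P.val.sub k)
    rw [valueA_constA] at hv
    refine Eq.trans (congrArg φ (Subtype.ext ?_)) hv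
    exact (i.commutes k).symm
  refine ⟨A, hAc, ?_, fun a ha => ?_⟩
  · have hX : ev X = y := by simp [ev]
    have h' : e.symm ⟨y, ⟨X, hX⟩⟩ = X :=
      e.injective (by rw [e.apply_symm_apply]; exact Subtype.ext hX.symm)
    refine (valueA_eq_zero_iff K A ⟨y, hmem ⟨y, ⟨X, hX⟩⟩⟩).mp ((hval ⟨y, ⟨X, hX⟩⟩).trans ?_)
    simp [φ, h']
  · obtain ⟨c, hc, hc'⟩ := ha
    let ψ : P.val.sub →ₐ[K] (constPlace (K := K) A).val.sub :=
      { toFun := fun x => ⟨i x, hmem ⟨_, (hφC x).1⟩⟩
        map_one' := Subtype.ext (map_one i)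
        map_mul' := fun x z => Subtype.ext (map_mul i (x : M) z)
        map_zero' := Subtype.ext (map_zero i)
        map_add' := fun x z => Subtype.ext (map_add i (x : M) z)
        commutes' := fun k => Subtype.ext (i.commutes k) }
    refine ⟨S.map ψ c, ?_, ?_⟩
    · rw [← hc, Setting.map_map, Setting.map_map]; rfl
    · refine Eq.trans ?_ hc'
      rw [Setting.map_map]
      refine congrArg (fun f : P.val.sub →ₐ[K] K => S.map f c) (AlgHom.ext fun x => ?_)
      show valueA K A ⟨i x, _⟩ = P.hom x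
      rw [place_hom_eq, ← (hφC x).2]
      exact hval ⟨_, (hφC x).1⟩

/-- The theorem for a generic pair of points. -/
theorem qprin_cube_generic (B : LineVal S) {F : Type u} [Field F] [Algebra K F]
    [FF.IsFunctionField K F] (x : S.Pt F) (P₀ : Place K F K) (hP₀ : P₀.Maps S x 0)
    {M N₁ L : Type u} [Field M] [Algebra K M] [Field N₁] [Algebra K N₁] [IsAlgClosed N₁]
    [Field L] [Algebra K L] [IsAlgClosed L] (i₁ : M →ₐ[K] N₁) {a : S.Pt N₁}
    (ha : IsGenericOver S i₁ a) (i₂ : N₁ →ₐ[K] L) {b : S.Pt L} (hb : IsGenericOver S i₂ b)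
    (j : F →ₐ[K] L) : QPrin (B.cube (S.map i₂ a) b (S.map j x)) := by
  obtain ⟨E, hE1, hE2, hE3, hE4, hT1, hT2, hC⟩ := exists_constExt K F L
  have hFF : FF.IsFunctionField L E := isFunctionField_constExt K F L E
  obtain ⟨M₂, _, _, i', P, hfix, hPb⟩ := hb (0 : S.Pt N₁)
  rw [map_zero] at hPb
  have hA : ∀ y : L, Transcendental K y → ∃ (A : ValuationSubring L) (_ : IsConstPlace K A),
      y ∈ A.nonunits ∧ (RedZero A (S.map i₂ a) ∨ RedZero A b) := by
    intro y hy
    by_cases hr : ∃ y₁, i₂ y₁ = y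
    · obtain ⟨y₁, rfl⟩ := hr
      have hy₁ : Transcendental K (i' y₁) := fun h => hy
        (((isAlgebraic_algHom_iff i' i'.toRingHom.injective).mp h).algHom i₂)
      let e : K[X] ≃ₐ[K] (aeval (R := K) (i' y₁)).range :=
        AlgEquiv.ofInjective _ (transcendental_iff_injective.mp hy₁)
      obtain ⟨A', hA', hmem, hval⟩ := exists_isConstPlace_of_hom
        (aeval (R := K) (i' y₁)).range.toSubring
        ((evalRingHom (0 : K)).comp e.symm.toAlgHom.toRingHom)
        (fun k => (aeval (R := K) (i' y₁)).range.algebraMap_mem k) (fun k => by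
          show Polynomial.eval 0 (e.symm (algebraMap K _ k)) = k
          rw [AlgEquiv.commutes]
          simp)
      set Q := Place.comp (constPlace (K := K) A') P with hQ
      have hQc := isConstPlace_of_place Q
      refine ⟨Q.val.sub, hQc, ?_, Or.inr ?_⟩
      · obtain ⟨h, hv⟩ := hfix y₁
        have h1 : valueA K A' ⟨i' y₁, hmem ⟨_, ⟨X, aeval_X (R := K) _⟩⟩⟩ = 0 := by
          refine (hval ⟨i' y₁, ⟨X, aeval_X (R := K) _⟩⟩).trans ?_
          show Polynomial.eval 0 (e.symm ⟨i' y₁, _⟩) = 0
          rw [show e.symm ⟨i' y₁, ⟨X, aeval_X (R := K) _⟩⟩ = X from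
            e.injective (by rw [AlgEquiv.apply_symm_apply]; exact Subtype.ext (aeval_X (R := K) _).symm)]
          simp
        have hmemQ : i₂ y₁ ∈ Q.val.sub :=
          (P.coe_mem_compVal_iff (r := ⟨_, h⟩) (constPlace (K := K) A').val).mpr
            (hv ▸ hmem ⟨_, ⟨X, aeval_X (R := K) _⟩⟩)
        refine (valueA_eq_zero_iff K Q.val.sub ⟨_, hmemQ⟩).mp ?_
        rw [← place_hom_eq]
        refine Eq.trans ?_ h1
        exact congrArg (valueA K A') (Subtype.ext hv)
      · exact (hPb.comp (Place.Maps.zero (constPlace (K := K) A'))).redZero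
    · obtain ⟨M₁, _, _, i₁', P₁, -, hPa⟩ := ha (0 : S.Pt M)
      rw [map_zero] at hPa
      obtain ⟨R⟩ := exists_place_to_const (K := K) M₁
      have hc := isConstPlace_of_place (Place.comp R P₁)
      obtain ⟨A, hAc, hyA, hred⟩ := exists_place_vanishing (S := S) i₂ (Place.comp R P₁) y
        fun p hp => by
          by_contra hp0
          let _ := i₂.toRingHom.toAlgebra
          have halg : IsAlgebraic N₁ y := ⟨p, hp0, hp⟩
          obtain ⟨y₁, hy₁⟩ := minpoly.mem_range_of_degree_eq_one N₁ y
            (IsAlgClosed.degree_eq_one_of_irreducible N₁ (minpoly.irreducible halg.isIntegral))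
          exact hr ⟨y₁, hy₁⟩
      exact ⟨A, hAc, hyA, Or.inl (hred a (hPa.comp (Place.Maps.zero R)))⟩
  have hA₀ : ∃ (A : ValuationSubring L) (_ : IsConstPlace K A),
      RedZero A (S.map i₂ a) ∨ RedZero A b := by
    obtain ⟨R⟩ := exists_place_to_const (K := K) M₂
    have hc := isConstPlace_of_place (Place.comp R P)
    exact ⟨_, hc, Or.inr (hPb.comp (Place.Maps.zero R)).redZero⟩
  have h := qprin_cube_constExt (E := E) B (S.map i₂ a) b x P₀ hP₀ hA hA₀
  obtain ⟨Pj, hPj⟩ := exists_evalPlace (E := E) j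
  exact B.qprin_specialise (pointPlace (K := K) Pj) (pointPlace_maps_const Pj _)
    (pointPlace_maps_const Pj _)
    (Place.maps_of_fix (pointPlace (K := K) Pj) (IsScalarTower.toAlgHom K F E) j hPj x) h

variable (S) in
/-- **The theorem of the square on a curve through the origin.** -/
theorem qprin_cube_curve (B : LineVal S) (F : Type u) [Field F] [Algebra K F]
    [FF.IsFunctionField K F] (x : S.Pt F) (P₀ : Place K F K) (hP₀ : P₀.Maps S x 0)
    (M : Type u) [Field M] [Algebra K M] [IsAlgClosed M] (j : F →ₐ[K] M) (a b : S.Pt M) :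
    QPrin (B.cube a b (S.map j x)) := by
  obtain ⟨N₁, _, _, _, i₁, a₁, ha, -⟩ := exists_generic_over S M
  obtain ⟨L, _, _, _, i₂, b₂, hb, -⟩ := exists_generic_over S N₁
  have h0 := qprin_cube_generic B x P₀ hP₀ i₁ ha i₂ hb (i₂.comp (i₁.comp j))
  obtain ⟨M₂, _, _, i₂', P₂, hfix₂, hPb⟩ := hb (S.map i₁ b)
  have h1 : QPrin (B.cube a₁ (S.map i₁ b) (S.map (i₁.comp j) x)) := by
    refine B.qprin_cube_of_map i₂' _ _ _ ?_
    refine B.qprin_specialise P₂ (P₂.maps_of_fix i₂ i₂' hfix₂ a₁) hPb ?_ h0
    rw [← Setting.map_map]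
    exact P₂.maps_of_fix i₂ i₂' hfix₂ _
  obtain ⟨M₁, _, _, i₁', P₁, hfix₁, hPa⟩ := ha a
  refine B.qprin_cube_of_map i₁' _ _ _ ?_
  refine B.qprin_specialise P₁ hPa (P₁.maps_of_fix i₁ i₁' hfix₁ b) ?_ h1
  rw [← Setting.map_map]
  exact P₁.maps_of_fix i₁ i₁' hfix₁ _

end Fermat.Agent.AV

end
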