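import Fermat.Agent.AV.Cube.Places

/-!
# Local equations of the cube expression on a constant curve

Over a place `A` of `L` with residue field `K` the cube expression of two constant points and a
point of the curve is given near each centre `Q` by one function; when one of the constant points
reduces to zero these functions reduce, up to one scalar, to the divisor of one function of `F`.
-/

set_option autoImplicit false
set_option linter.unusedSectionVars false

noncomputable section

universe u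

open AlgebraicCurve

namespace Fermat.Agent.AV

open Fermat.Agent.FF Fermat.Agent.AV.Const

theorem ord_eq_of_valuation_eq {k G : Type*} [Field k] [Field G] [Algebra k G]
    (P : AlgebraicCurve.Place k G) {x y : G} (hx : x ≠ 0) (hy : y ≠ 0)
    (h : P.toValuationSubring.valuation x = P.toValuationSubring.valuation y) :
    P.ord x = P.ord y := by
  have h1 := ord_nonneg P ((P.toValuationSubring.valuation_le_one_iff (x / y)).mp (by
    rw [map_div₀, h, div_self ((Valuation.ne_zero_iff _).mpr hy)]))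
  have h2 := ord_nonneg P ((P.toValuationSubring.valuation_le_one_iff (y / x)).mp (by
    rw [map_div₀, h, div_self ((Valuation.ne_zero_iff _).mpr hy)]))
  rw [div_eq_mul_inv, P.ord_mul hx (inv_ne_zero hy), P.ord_inv] at h1
  rw [div_eq_mul_inv, P.ord_mul hy (inv_ne_zero hx), P.ord_inv] at h2
  omega

variable {K : Type u} [Field K] {S : Setting K}

theorem LineVal.cube_local_eq (B : LineVal S) {M : Type u} [Field M] [Algebra K M]
    (R : Subalgebra K M) (a b c : S.Pt R) (p : Ideal R) (hp : p.IsPrime) :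
    ∃ u : M, u ≠ 0 ∧ ∀ W : Val K M, (∀ r : R, (r : M) ∈ W.sub) →
      (∀ r : R, (r : M) ∈ W.sub.nonunits → r ∈ p) →
      W.sub.valuation (B.cube (S.map R.val a) (S.map R.val b) (S.map R.val c) W) =
        W.sub.valuation u := by
  obtain ⟨u₁, n₁, e₁⟩ := B.local_eq R (a + b + c) p hp
  obtain ⟨u₂, n₂, e₂⟩ := B.local_eq R a p hp
  obtain ⟨u₃, n₃, e₃⟩ := B.local_eq R b p hp
  obtain ⟨u₄, n₄, e₄⟩ := B.local_eq R c p hp
  obtain ⟨u₅, n₅, e₅⟩ := B.local_eq R (a + b) p hp
  obtain ⟨u₆, n₆, e₆⟩ := B.local_eq R (a + c) p hp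
  obtain ⟨u₇, n₇, e₇⟩ := B.local_eq R (b + c) p hp
  obtain ⟨u₈, n₈, e₈⟩ := B.local_eq R 0 p hp
  refine ⟨u₁ * u₂ * u₃ * u₄ / (u₅ * u₆ * u₇ * u₈), by simp [n₁, n₂, n₃, n₄, n₅, n₆, n₇, n₈],
    fun W h h' => ?_⟩
  simp only [map_add, map_zero] at e₁ e₅ e₆ e₇ e₈
  simp only [LineVal.cube, map_div₀, map_mul, e₁ W h h', e₂ W h h', e₃ W h h', e₄ W h h', e₅ W h h',
    e₆ W h h', e₇ W h h', e₈ W h h']

variable [IsAlgClosed K] {F L E : Type u} [Field F] [Field L] [Field E] [Algebra K F] [Algebra K L]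
  [Algebra L E] [Algebra F E] [Algebra K E] [IsScalarTower K L E] [IsScalarTower K F E]
  [IsAlgClosed L] [IsFunctionField K F] [IsConstExt K F L E] [IsFunctionField L E]
  (B : LineVal S)

/-- One local equation near each centre. -/
theorem exists_localEq (A : ValuationSubring L) [IsConstPlace K A] (a b : S.Pt L) (x : S.Pt F)
    (Q : AlgebraicCurve.Place K F) :
    ∃ u : E, u ≠ 0 ∧ ∀ (W : ValuationSubring E) [IsConstPlace K W],
      W.comap (algebraMap L E) = A → centre K F W = Q → ∀ V : Val K E, W ≤ V.sub →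
        V.sub.valuation (B.cube (S.map (inL K L E) a) (S.map (inL K L E) b)
          (S.map (IsScalarTower.toAlgHom K F E) x) V) = V.sub.valuation u := by
  have hQc := isConstPlace_place Q
  let R : Subalgebra K E :=
    Algebra.adjoin K (algebraMap L E '' (A : Set L) ∪ algebraMap F E '' (Q.toValuationSubring : Set F))
  let ψA : (constVal (K := K) A).sub →ₐ[K] R :=
    { toFun := fun c => ⟨algebraMap L E (c : L), Algebra.subset_adjoin (Or.inl ⟨c, c.2, rfl⟩)⟩
      map_one' := Subtype.ext (map_one (algebraMap L E))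
      map_mul' := fun c d => Subtype.ext (map_mul (algebraMap L E) (c : L) d)
      map_zero' := Subtype.ext (map_zero (algebraMap L E))
      map_add' := fun c d => Subtype.ext (map_add (algebraMap L E) (c : L) d)
      commutes' := fun k => Subtype.ext (IsScalarTower.algebraMap_apply K L E k).symm }
  let ψQ : (constVal (K := K) Q.toValuationSubring).sub →ₐ[K] R :=
    { toFun := fun c => ⟨algebraMap F E (c : F), Algebra.subset_adjoin (Or.inr ⟨c, c.2, rfl⟩)⟩
      map_one' := Subtype.ext (map_one (algebraMap F E))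
      map_mul' := fun c d => Subtype.ext (map_mul (algebraMap F E) (c : F) d)
      map_zero' := Subtype.ext (map_zero (algebraMap F E))
      map_add' := fun c d => Subtype.ext (map_add (algebraMap F E) (c : F) d)
      commutes' := fun k => Subtype.ext (IsScalarTower.algebraMap_apply K F E k).symm }
  have hmem : ∀ (W : ValuationSubring E) [IsConstPlace K W], W.comap (algebraMap L E) = A →
      centre K F W = Q → ∀ r : R, (r : E) ∈ W := by
    intro W _ hWA hWQ r
    have hle : R ≤ ({ W.toSubring with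
        algebraMap_mem' := IsConstPlace.algebraMap_mem } : Subalgebra K E) := by
      refine Algebra.adjoin_le ?_
      rintro _ (⟨c, hc, rfl⟩ | ⟨f, hf, rfl⟩)
      · exact (SetLike.ext_iff.mp hWA c).mpr hc
      · exact (mem_centre K F).mp (hWQ ▸ hf : f ∈ (centre K F W).toValuationSubring)
    exact hle r.2
  set W₀ := specVal A (cst L E Q) with hW₀
  have hW₀A : W₀.comap (algebraMap L E) = A := comap_specVal A _
  have hW₀Q : centre K F W₀ = Q := spec_cst A Q
  let ι₀ : R →+* W₀ := R.val.toRingHom.codRestrict W₀.toSubring (hmem W₀ hW₀A hW₀Q)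
  let p : Ideal R := (IsLocalRing.maximalIdeal W₀).comap ι₀
  have hp : p.IsPrime := Ideal.comap_isPrime ι₀ _
  have hval : ∀ (W : ValuationSubring E) [IsConstPlace K W] (hWA : W.comap (algebraMap L E) = A)
      (hWQ : centre K F W = Q) (r : R),
      valueA K W ⟨r, hmem W hWA hWQ r⟩ = valueA K W₀ ⟨r, hmem W₀ hW₀A hW₀Q r⟩ := by
    intro W _ hWA hWQ r
    have key : ∀ (V : ValuationSubring E) [IsConstPlace K V], V.comap (algebraMap L E) = A →
        centre K F V = Q → ∀ r : E, ∀ k : K, (∃ c : L, c ∈ A ∧ algebraMap L E c = r ∧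
          c - algebraMap K L k ∈ A.nonunits) ∨ (∃ f : F, f ∈ Q.toValuationSubring ∧
          algebraMap F E f = r ∧ f - algebraMap K F k ∈ Q.toValuationSubring.nonunits) →
        r - algebraMap K E k ∈ V.nonunits := by
      intro V _ hVA hVQ r k h
      rcases h with ⟨c, -, rfl, hk⟩ | ⟨f, -, rfl, hk⟩
      · have := mem_nonunits_comap.mp
          ((SetLike.ext_iff.mp (congrArg ValuationSubring.nonunits hVA) _).mpr hk)
        rwa [map_sub, ← IsScalarTower.algebraMap_apply] at this
      · rw [← hVQ] at hk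
        have := mem_nonunits_comap.mp (show f - algebraMap K F k ∈
          (V.comap (algebraMap F E)).nonunits from hk)
        rwa [map_sub, ← IsScalarTower.algebraMap_apply] at this
    have hv : ∀ (V : ValuationSubring E) [IsConstPlace K V] (r : E) (hr : r ∈ V) (k : K),
        r - algebraMap K E k ∈ V.nonunits → valueA K V ⟨r, hr⟩ = k := by
      intro V _ r hr k h
      have h1 : valueA K V (⟨r, hr⟩ - constA K V k) = 0 := (valueA_eq_zero_iff K V _).mpr h
      rwa [map_sub, valueA_constA, sub_eq_zero] at h1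
    obtain ⟨r, hr⟩ := r
    induction hr using Algebra.adjoin_induction with
    | mem r hr =>
      obtain ⟨k, hk⟩ : ∃ k : K, (∃ c : L, c ∈ A ∧ algebraMap L E c = r ∧
          c - algebraMap K L k ∈ A.nonunits) ∨ (∃ f : F, f ∈ Q.toValuationSubring ∧
          algebraMap F E f = r ∧ f - algebraMap K F k ∈ Q.toValuationSubring.nonunits) := by
        rcases hr with ⟨c, hc, rfl⟩ | ⟨f, hf, rfl⟩
        · obtain ⟨k, hk⟩ := IsConstPlace.exists_sub_mem (K := K) (A := A) c hc
          exact ⟨k, Or.inl ⟨c, hc, rfl, hk⟩⟩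
        · obtain ⟨k, hk⟩ := hQc.exists_sub_mem f hf
          exact ⟨k, Or.inr ⟨f, hf, rfl, hk⟩⟩
      rw [hv W r _ k (key W hWA hWQ r k hk), hv W₀ r _ k (key W₀ hW₀A hW₀Q r k hk)]
    | algebraMap k =>
      exact (valueA_constA K W k).trans (valueA_constA K W₀ k).symm
    | add x y hx hy ihx ihy =>
      refine Eq.trans (map_add (valueA K W) ⟨x, hmem W hWA hWQ ⟨x, hx⟩⟩ ⟨y, hmem W hWA hWQ ⟨y, hy⟩⟩) ?_
      rw [ihx, ihy]
      exact (map_add (valueA K W₀) _ _).symm
    | mul x y hx hy ihx ihy =>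
      refine Eq.trans (map_mul (valueA K W) ⟨x, hmem W hWA hWQ ⟨x, hx⟩⟩ ⟨y, hmem W hWA hWQ ⟨y, hy⟩⟩) ?_
      rw [ihx, ihy]
      exact (map_mul (valueA K W₀) _ _).symm
  let aR : S.Pt R := S.map ψA (S.liftPt a (constVal A))
  let bR : S.Pt R := S.map ψA (S.liftPt b (constVal A))
  let xR : S.Pt R := S.map ψQ (S.liftPt x (constVal Q.toValuationSubring))
  have ha : S.map R.val aR = S.map (inL K L E) a := by
    conv_rhs => rw [← S.map_liftPt a (constVal A), Setting.map_map]
    rw [Setting.map_map]; rfl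
  have hb : S.map R.val bR = S.map (inL K L E) b := by
    conv_rhs => rw [← S.map_liftPt b (constVal A), Setting.map_map]
    rw [Setting.map_map]; rfl
  have hx : S.map R.val xR = S.map (IsScalarTower.toAlgHom K F E) x := by
    conv_rhs => rw [← S.map_liftPt x (constVal Q.toValuationSubring), Setting.map_map]
    rw [Setting.map_map]; rfl
  obtain ⟨u, hu, H⟩ := B.cube_local_eq R aR bR xR p hp
  rw [ha, hb, hx] at H
  refine ⟨u, hu, fun W _ hWA hWQ V hWV => H V (fun r => hWV (hmem W hWA hWQ r)) fun r hr => ?_⟩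
  have h1 : valueA K W ⟨r, hmem W hWA hWQ r⟩ = 0 :=
    (valueA_eq_zero_iff K W _).mpr (ValuationSubring.nonunits_le_nonunits.mpr hWV hr)
  rw [hval W hWA hWQ, valueA_eq_zero_iff] at h1
  show ι₀ r ∈ IsLocalRing.maximalIdeal W₀
  exact ValuationSubring.coe_mem_nonunits_iff.mp h1

/-- The local equations have a common scale and, when a constant point reduces to zero, reduce to
the divisor of one function. -/
theorem exists_localScale (A : ValuationSubring L) [IsConstPlace K A] (G : GaussRed K F E A)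
    (a b : S.Pt L) (x : S.Pt F) :
    ∃ lam : L, lam ≠ 0 ∧ ∃ e₀ : F, e₀ ≠ 0 ∧ ∀ Q : AlgebraicCurve.Place K F, ∃ z : G.sub,
      G.red z ≠ 0 ∧ (RedZero A a ∨ RedZero A b → Q.ord (G.red z) = Q.ord e₀) ∧
      ∀ (W : ValuationSubring E) [IsConstPlace K W],
        W.comap (algebraMap L E) = A → centre K F W = Q → ∀ V : Val K E, W ≤ V.sub →
          V.sub.valuation (B.cube (S.map (inL K L E) a) (S.map (inL K L E) b)
            (S.map (IsScalarTower.toAlgHom K F E) x) V) =
          V.sub.valuation (algebraMap L E lam * (z : E)) := by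
  set γ := B.cube (S.map (inL K L E) a) (S.map (inL K L E) b)
    (S.map (IsScalarTower.toAlgHom K F E) x) with hγ
  obtain ⟨a', b', ha', hb', hab⟩ : ∃ a' b' : S.Pt K, (constPlace (K := K) A).Maps S a a' ∧
      (constPlace (K := K) A).Maps S b b' ∧ (RedZero A a ∨ RedZero A b → a' = 0 ∨ b' = 0) := by
    have hex : ∀ p : S.Pt L, ∃ p' : S.Pt K, (constPlace (K := K) A).Maps S p p' := fun p =>
      ⟨_, S.liftPt p (constVal A), S.map_liftPt p _, rfl⟩
    obtain ⟨a', ha'⟩ := hex a
    obtain ⟨b', hb'⟩ := hex b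
    by_cases h : RedZero A a
    · exact ⟨0, b', h, hb', fun _ => Or.inl rfl⟩
    by_cases h' : RedZero A b
    · exact ⟨a', 0, ha', h', fun _ => Or.inr rfl⟩
    exact ⟨a', b', ha', hb', fun hh => absurd hh (not_or.mpr ⟨h, h'⟩)⟩
  obtain ⟨c, hc, c', hc', H⟩ := B.placeRel_cube (gaussPlace G) (gaussPlace_maps_const G ha')
    (gaussPlace_maps_const G hb') (gaussPlace_maps_fun G x)
  obtain ⟨lam, hlam, c₁, hcl, hc₁⟩ := G.scale c hc
  refine ⟨lam, hlam, G.red c₁ / c', div_ne_zero hc₁ hc', fun Q => ?_⟩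
  have hQc := isConstPlace_place Q
  obtain ⟨u, hu, hloc⟩ := exists_localEq (E := E) B A a b x Q
  set WQ : Val K F := constVal (K := K) Q.toValuationSubring
  set W : Val K E := (gaussPlace G).compVal WQ with hW
  have hWc : IsConstPlace K W.sub :=
    isConstPlace_of_place (Place.comp (constPlace (K := K) Q.toValuationSubring) (gaussPlace G))
  have hWA : W.sub.comap (algebraMap L E) = A := by
    refine SetLike.ext fun d => ⟨fun hd => ?_, fun hd => ?_⟩
    · exact G.mem_of_const_mem ((gaussPlace G).compVal_le WQ hd)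
    · refine ((gaussPlace G).coe_mem_compVal_iff (r := ⟨_, G.mem_const ⟨d, hd⟩⟩) WQ).mpr ?_
      show G.red ⟨_, G.mem_const ⟨d, hd⟩⟩ ∈ Q.toValuationSubring
      rw [G.red_const]
      exact Q.algebraMap_mem' _
  have hWQ : centre K F W.sub = Q := by
    refine AlgebraicCurve.Place.ext (SetLike.ext fun f => ?_)
    rw [mem_centre]
    refine ((gaussPlace G).coe_mem_compVal_iff (r := ⟨_, G.mem_fun f⟩) WQ).trans ?_
    show G.red ⟨_, G.mem_fun f⟩ ∈ Q.toValuationSubring ↔ _
    rw [G.red_fun]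
  obtain ⟨r, hr, h1, h2⟩ := H WQ
  have hrG : G.red r ≠ 0 := hr
  have hr0 : (r : E) ≠ 0 := (gaussPlace G).coe_ne_zero hr
  have hc₁0 : (c₁ : E) ≠ 0 := fun h => hc₁ (by rw [show c₁ = 0 from Subtype.ext h, map_zero])
  have hl : algebraMap L E lam ≠ 0 := (_root_.map_ne_zero _).mpr hlam
  set z : E := u / algebraMap L E lam with hz
  have hz0 : z ≠ 0 := div_ne_zero hu hl
  have hval : W.sub.valuation z = W.sub.valuation ((c₁ : E) * (r : E)) := by
    rw [hz, map_div₀, ← hloc W.sub hWA hWQ W le_rfl, ← hγ, h1, hcl, map_mul, map_mul, map_mul,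
      mul_assoc, mul_div_cancel_left₀ _ ((Valuation.ne_zero_iff _).mpr hl)]
  rw [Val.valuation_eq_iff_div_mem _ hz0 (mul_ne_zero hc₁0 hr0)] at hval
  obtain ⟨ε, hεQ, hε⟩ := ((gaussPlace G).mem_compVal_iff WQ).mp hval.1
  obtain ⟨η, hηQ, hη⟩ := ((gaussPlace G).mem_compVal_iff WQ).mp hval.2
  replace hεQ : G.red ε ∈ Q.toValuationSubring := hεQ
  replace hηQ : G.red η ∈ Q.toValuationSubring := hηQ
  have hzG : z ∈ G.sub := by
    rw [show z = ((ε : G.sub) : E) * ((c₁ : E) * (r : E)) by
      rw [show ((ε : G.sub) : E) = z / ((c₁ : E) * (r : E)) from hε,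
        div_mul_cancel₀ _ (mul_ne_zero hc₁0 hr0)]]
    exact mul_mem ε.2 (mul_mem c₁.2 r.2)
  have hred : G.red ⟨z, hzG⟩ = G.red ε * (G.red c₁ * G.red r) := by
    rw [← map_mul, ← map_mul]
    refine congrArg G.red (Subtype.ext ?_)
    show z = ((ε : G.sub) : E) * ((c₁ : E) * (r : E))
    rw [show ((ε : G.sub) : E) = z / ((c₁ : E) * (r : E)) from hε,
      div_mul_cancel₀ _ (mul_ne_zero hc₁0 hr0)]
  have hεη : G.red ε * G.red η = 1 := by
    rw [← map_mul, ← map_one G.red]
    refine congrArg G.red (Subtype.ext ?_)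
    show ((ε : G.sub) : E) * ((η : G.sub) : E) = 1
    rw [show ((ε : G.sub) : E) = z / ((c₁ : E) * (r : E)) from hε,
      show ((η : G.sub) : E) = (c₁ : E) * (r : E) / z from hη, div_mul_div_comm,
      mul_comm z, div_self (mul_ne_zero (mul_ne_zero hc₁0 hr0) hz0)]
  have hε0 : G.red ε ≠ 0 := left_ne_zero_of_mul_eq_one hεη
  have hεord : Q.ord (G.red ε) = 0 := by
    have h3 := ord_nonneg Q hεQ
    have h4 := ord_nonneg Q hηQ
    rw [eq_inv_of_mul_eq_one_right hεη, Q.ord_inv] at h4
    omega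
  have hrord : RedZero A a ∨ RedZero A b → Q.ord (G.red r) = -Q.ord c' := fun hh => by
    have hδ : B.cube (S.map (Algebra.ofId K F) a') (S.map (Algebra.ofId K F) b') x WQ = 1 := by
      rcases hab hh with h | h <;> rw [h, map_zero]
      · exact B.cube_zero_left _ _ _
      · exact B.cube_zero_mid _ _ _
    rw [hδ] at h2
    have h3 := ord_eq_of_valuation_eq Q one_ne_zero (mul_ne_zero hc' hrG) h2
    rw [AlgebraicCurve.Place.ord_one, Q.ord_mul hc' hrG] at h3
    omega
  refine ⟨⟨z, hzG⟩, by rw [hred]; exact mul_ne_zero hε0 (mul_ne_zero hc₁ hrG), fun hh => ?_,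
    fun W' _ hA' hQ' V hV => ?_⟩
  · rw [hred, Q.ord_mul hε0 (mul_ne_zero hc₁ hrG), Q.ord_mul hc₁ hrG, hεord, hrord hh,
      div_eq_mul_inv, Q.ord_mul hc₁ (inv_ne_zero hc'), Q.ord_inv]
    ring
  · rw [hloc W' hA' hQ' V hV]
    congr 1
    exact (mul_div_cancel₀ u hl).symm

end Fermat.Agent.AV

end
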