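import Fermat.Agent.AV.Line
import Fermat.Agent.AV.Const.Points

/-!
# Places with constant residue field and the Gauss place
-/

set_option autoImplicit false
set_option linter.unusedSectionVars false

noncomputable section

universe u

namespace Fermat.Agent.AV

open Fermat.Agent.AV.Const

variable {K : Type u} [Field K] {S : Setting K}
variable {M N : Type u} [Field M] [Algebra K M] [Field N] [Algebra K N]

/-- Two places agreeing on a subfield map its points compatibly. -/
theorem Place.maps_of_fix {M₀ : Type u} [Field M₀] [Algebra K M₀] (P : Place K M N)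
    (i : M₀ →ₐ[K] M) (i' : M₀ →ₐ[K] N) (hfix : ∀ x : M₀, ∃ h : i x ∈ P.val.sub, P.hom ⟨i x, h⟩ = i' x)
    (p : S.Pt M₀) : P.Maps S (S.map i p) (S.map i' p) := by
  let ψ : M₀ →ₐ[K] P.val.sub :=
    { toFun := fun x => ⟨i x, (hfix x).1⟩
      map_one' := Subtype.ext (map_one i)
      map_mul' := fun x y => Subtype.ext (map_mul i x y)
      map_zero' := Subtype.ext (map_zero i)
      map_add' := fun x y => Subtype.ext (map_add i x y)
      commutes' := fun k => Subtype.ext (i.commutes k) }
  refine ⟨S.map ψ p, ?_, ?_⟩
  · rw [Setting.map_map]; rfl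
  · rw [Setting.map_map]
    exact congrArg (fun φ : M₀ →ₐ[K] N => S.map φ p) (AlgHom.ext fun x => (hfix x).2)

theorem isUnit_of_valueA_ne_zero (A : ValuationSubring M) [IsConstPlace K A] (a : A)
    (ha : valueA K A a ≠ 0) : IsUnit a := by
  rw [← IsLocalRing.residue_ne_zero_iff_isUnit]
  intro h
  exact ha (by rw [valueA, RingHom.comp_apply, h, map_zero])

/-- A valuation ring with residue field `K` as a valuation over `K`. -/
def constVal (A : ValuationSubring M) [IsConstPlace K A] : Val K M :=
  ⟨A, IsConstPlace.algebraMap_mem (K := K)⟩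

/-- The value as an algebra map. -/
def valueHom (A : ValuationSubring M) [IsConstPlace K A] : (constVal (K := K) A).sub →ₐ[K] K where
  toFun a := valueA K A a
  map_one' := map_one (valueA K A)
  map_mul' := map_mul (valueA K A)
  map_zero' := map_zero (valueA K A)
  map_add' := map_add (valueA K A)
  commutes' k := valueA_constA K A k

/-- A valuation ring with residue field `K` as a place with values in `K`. -/
def constPlace (A : ValuationSubring M) [IsConstPlace K A] : Place K M K where
  val := constVal A
  hom := valueHom A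
  isLocalHom := ⟨fun a ha => isUnit_of_valueA_ne_zero A a ha.ne_zero⟩

/-- The ring of a place with values in `K` has residue field `K`. -/
theorem isConstPlace_of_place (P : Place K M K) : IsConstPlace K P.val.sub := by
  refine ⟨P.val.algebraMap_mem, fun a ha => ⟨P.hom ⟨a, ha⟩, ?_⟩⟩
  have h0 : P.hom (⟨a, ha⟩ - algebraMap K P.val.sub (P.hom ⟨a, ha⟩)) = 0 := by
    rw [map_sub, P.hom.commutes]
    exact sub_self _
  have h1 : ¬ IsUnit (⟨a, ha⟩ - algebraMap K P.val.sub (P.hom ⟨a, ha⟩)) := fun hu =>
    (P.hom_ne_zero_iff _).mpr hu h0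
  exact ValuationSubring.coe_mem_nonunits_iff.mpr
    ((IsLocalRing.mem_maximalIdeal _).mpr h1)

theorem place_hom_eq (P : Place K M K) [IsConstPlace K P.val.sub] (a : P.val.sub) :
    P.hom a = valueA K P.val.sub a := by
  have h1 := sub_valueA_mem K P.val.sub a
  have h2 : ¬ IsUnit (a - algebraMap K P.val.sub (valueA K P.val.sub a)) :=
    (IsLocalRing.mem_maximalIdeal _).mp (ValuationSubring.coe_mem_nonunits_iff.mp h1)
  have h3 : P.hom (a - algebraMap K P.val.sub (valueA K P.val.sub a)) = 0 := by
    by_contra h
    exact h2 ((P.hom_ne_zero_iff _).mp h)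
  rw [map_sub, P.hom.commutes, sub_eq_zero] at h3
  exact h3

/-- A point reduces to `0` at `A`. -/
def RedZero (A : ValuationSubring M) [IsConstPlace K A] (a : S.Pt M) : Prop :=
  (constPlace (K := K) A).Maps S a 0

theorem Place.Maps.redZero {P : Place K M K} {a : S.Pt M} (h : P.Maps S a 0)
    [IsConstPlace K P.val.sub] : RedZero P.val.sub a := by
  obtain ⟨c, h1, h2⟩ := h
  refine ⟨c, h1, Eq.trans ?_ h2⟩
  exact congrArg (fun φ : P.val.sub →ₐ[K] K => S.map φ c)
    (show (valueHom P.val.sub : P.val.sub →ₐ[K] K) = P.hom from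
      AlgHom.ext fun x => (place_hom_eq P x).symm)

/-- Equal valuations on a smaller ring give equal valuations on a larger one. -/
theorem valuation_eq_of_le {V W : ValuationSubring M} (h : W ≤ V) {x y : M} (hx : x ≠ 0)
    (hy : y ≠ 0) (he : W.valuation x = W.valuation y) : V.valuation x = V.valuation y := by
  rw [Val.valuation_eq_iff_div_mem _ hx hy] at he ⊢
  exact ⟨h he.1, h he.2⟩

section Gauss

variable {F L E : Type u} [Field F] [Field L] [Field E] [Algebra K F] [Algebra K L] [Algebra L E]
  [Algebra F E] [Algebra K E] [IsScalarTower K L E] [IsScalarTower K F E]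

/-- `L → E` as a `K`-embedding. -/
abbrev inL (K L E : Type u) [Field K] [Field L] [Field E] [Algebra K L] [Algebra L E] [Algebra K E]
    [IsScalarTower K L E] : L →ₐ[K] E :=
  IsScalarTower.toAlgHom K L E

variable {A : ValuationSubring L} [IsConstPlace K A]

theorem isUnit_of_red_ne_zero (G : GaussRed K F E A) (y : G.sub) (hy : G.red y ≠ 0) : IsUnit y :=
  IsUnit.of_mul_eq_one ⟨_, G.inv_mem y hy⟩ (Subtype.ext (mul_inv_cancel₀ fun h => hy (by
    rw [show y = 0 from Subtype.ext h, map_zero])))

/-- The Gauss valuation over `K`. -/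
def gaussVal (G : GaussRed K F E A) : Val K E :=
  ⟨G.sub, fun k => by
    rw [IsScalarTower.algebraMap_apply K L E]
    exact G.mem_const (constA K A k)⟩

/-- The reduction as an algebra map. -/
def gaussHom (G : GaussRed K F E A) : (gaussVal G).sub →ₐ[K] F where
  toFun y := G.red y
  map_one' := map_one G.red
  map_mul' := map_mul G.red
  map_zero' := map_zero G.red
  map_add' := map_add G.red
  commutes' k := by
    refine Eq.trans ?_ (G.red_constA k)
    exact congrArg G.red (Subtype.ext (IsScalarTower.algebraMap_apply K L E k))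

/-- The Gauss place. -/
def gaussPlace (G : GaussRed K F E A) : Place K E F where
  val := gaussVal G
  hom := gaussHom G
  isLocalHom := ⟨fun y hy => isUnit_of_red_ne_zero G y hy.ne_zero⟩

/-- Constant points reduce to their reductions. -/
theorem gaussPlace_maps_const (G : GaussRed K F E A) {a : S.Pt L} {a' : S.Pt K}
    (h : (constPlace (K := K) A).Maps S a a') :
    (gaussPlace G).Maps S (S.map (inL K L E) a) (S.map (Algebra.ofId K F) a') := by
  obtain ⟨c, hc, hc'⟩ := h
  let ψ : (constPlace (K := K) A).val.sub →ₐ[K] (gaussPlace G).val.sub :=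
    { toFun := fun x => ⟨algebraMap L E (x : L), G.mem_const x⟩
      map_one' := Subtype.ext (map_one (algebraMap L E))
      map_mul' := fun x y => Subtype.ext (map_mul (algebraMap L E) (x : L) y)
      map_zero' := Subtype.ext (map_zero (algebraMap L E))
      map_add' := fun x y => Subtype.ext (map_add (algebraMap L E) (x : L) y)
      commutes' := fun k => Subtype.ext (IsScalarTower.algebraMap_apply K L E k).symm }
  refine ⟨S.map ψ c, ?_, ?_⟩
  · rw [← hc, Setting.map_map, Setting.map_map]; rfl
  · rw [← hc', Setting.map_map, Setting.map_map]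
    exact congrArg (fun φ : (constPlace (K := K) A).val.sub →ₐ[K] F => S.map φ c)
      (AlgHom.ext fun x => G.red_const x)

theorem gaussPlace_maps_fun (G : GaussRed K F E A) (x : S.Pt F) :
    (gaussPlace G).Maps S (S.map (IsScalarTower.toAlgHom K F E) x) x := by
  have h := Place.maps_of_fix (gaussPlace G) (IsScalarTower.toAlgHom K F E) (AlgHom.id K F)
    (fun f => ⟨G.mem_fun f, G.red_fun f⟩) x
  rwa [S.map_id] at h

end Gauss

/-- With one argument zero the cube expression is one. -/
theorem LineVal.cube_zero_left (B : LineVal S) (b c : S.Pt M) (W : Val K M) :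
    B.cube 0 b c W = 1 := by
  simp only [LineVal.cube, zero_add]
  rw [div_eq_one_iff_eq (by simp [B.ne_zero])]
  ring

theorem LineVal.cube_zero_mid (B : LineVal S) (a c : S.Pt M) (W : Val K M) :
    B.cube a 0 c W = 1 := by
  simp only [LineVal.cube, add_zero, zero_add]
  rw [div_eq_one_iff_eq (by simp [B.ne_zero])]
  ring

theorem LineVal.cube_zero_right (B : LineVal S) (a b : S.Pt M) (W : Val K M) :
    B.cube a b 0 W = 1 := by
  simp only [LineVal.cube, add_zero]
  rw [div_eq_one_iff_eq (by simp [B.ne_zero])]

end Fermat.Agent.AV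

end
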