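import Fermat.Agent.AV.Cube.Local
import Fermat.Agent.AV.Const.Genus
import Fermat.Agent.AV.Calculus

/-!
# Rigidity of the cube expression on a constant curve

If two constant points can be made to reduce to zero while a given transcendental number of `L`
reduces to zero, the cube expression of them and a point of the curve through the origin is
principal: its divisor on `E/L` is the divisor of a function, which also gives its values at every
valuation ring over `K`.
-/

set_option autoImplicit false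
set_option linter.unusedSectionVars false

noncomputable section

universe u

open scoped Classical
open AlgebraicCurve

namespace Fermat.Agent.AV

open Fermat.Agent.FF Fermat.Agent.AV.Const Fermat.Agent.EichlerShimura

variable {K : Type u} [Field K] [IsAlgClosed K] {S : Setting K}
  {F L E : Type u} [Field F] [Field L] [Field E] [Algebra K F] [Algebra K L]
  [Algebra L E] [Algebra F E] [Algebra K E] [IsScalarTower K L E] [IsScalarTower K F E]
  [IsAlgClosed L] [IsFunctionField K F] [IsConstExt K F L E] [IsFunctionField L E]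
  (B : LineVal S)

theorem finite_range_cube {M : Type u} [Field M] [Algebra K M] (a b c : S.Pt M) :
    (Set.range (B.cube a b c)).Finite := by
  have h := (((B.finite_range (a + b + c)).image2 (· * ·) (B.finite_range a)).image2 (· * ·)
    (B.finite_range b)).image2 (· * ·) (B.finite_range c)
  have h' := (((B.finite_range (a + b)).image2 (· * ·) (B.finite_range (a + c))).image2 (· * ·)
    (B.finite_range (b + c))).image2 (· * ·) (B.finite_range (0 : S.Pt M))
  refine Set.Finite.subset (h.image2 (· / ·) h') ?_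
  rintro _ ⟨W, rfl⟩
  exact Set.mem_image2_of_mem
    (Set.mem_image2_of_mem (Set.mem_image2_of_mem (Set.mem_image2_of_mem ⟨W, rfl⟩ ⟨W, rfl⟩) ⟨W, rfl⟩)
      ⟨W, rfl⟩)
    (Set.mem_image2_of_mem (Set.mem_image2_of_mem (Set.mem_image2_of_mem ⟨W, rfl⟩ ⟨W, rfl⟩) ⟨W, rfl⟩)
      ⟨W, rfl⟩)

/-- The valuation over `K` of a point of `E/L`. -/
def pointVal (P : AlgebraicCurve.Place L E) : Val K E :=
  ⟨P.toValuationSubring, fun k => by
    rw [IsScalarTower.algebraMap_apply K L E]; exact P.algebraMap_mem' _⟩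

/-- The point as a place with values in `L`. -/
def pointHom (P : AlgebraicCurve.Place L E) : (pointVal (K := K) P).sub →ₐ[K] L where
  toFun y := valAtP P y
  map_one' := map_one (valAtP P)
  map_mul' := map_mul (valAtP P)
  map_zero' := map_zero (valAtP P)
  map_add' := map_add (valAtP P)
  commutes' k := by
    refine Eq.trans ?_ (valAtP_const (E := E) P (c := algebraMap K L k))
    exact congrArg (valAtP P) (Subtype.ext (IsScalarTower.algebraMap_apply K L E k))

/-- A point of `E/L` as a place with values in `L`. -/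
def pointPlace (P : AlgebraicCurve.Place L E) : Place K E L where
  val := pointVal P
  hom := pointHom P
  isLocalHom := ⟨fun y hy => by
    have h0 : valAtP P ⟨(y : E), y.2⟩ ≠ 0 := hy.ne_zero
    obtain ⟨hi, -⟩ := valAtP_inv P y.2 h0
    exact IsUnit.of_mul_eq_one ⟨(y : E)⁻¹, hi⟩ (Subtype.ext (mul_inv_cancel₀ fun h => h0 (by
      rw [show (⟨(y : E), y.2⟩ : P.toValuationSubring) = 0 from Subtype.ext h, map_zero])))⟩

theorem pointPlace_maps_const (P : AlgebraicCurve.Place L E) (a : S.Pt L) :
    (pointPlace (K := K) P).Maps S (S.map (inL K L E) a) a := by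
  have h := Place.maps_of_fix (pointPlace (K := K) P) (inL K L E) (AlgHom.id K L)
    (fun c => ⟨P.algebraMap_mem' c, valAtP_const P⟩) a
  rwa [S.map_id] at h

theorem compVal_pointPlace (P : AlgebraicCurve.Place L E) (A : ValuationSubring L)
    [IsConstPlace K A] :
    ((pointPlace (K := K) P).compVal (constVal A)).sub = specVal A P := by
  refine SetLike.ext fun f => ?_
  rw [mem_specVal, Place.mem_compVal_iff]
  exact ⟨fun ⟨r, hr, e⟩ => e ▸ ⟨r.2, hr⟩, fun ⟨h, hv⟩ => ⟨⟨f, h⟩, hv, rfl⟩⟩

/-- The constant point at the origin of the curve. -/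
theorem exists_origin (P₀ : Place K F K) (x : S.Pt F) (hx : P₀.Maps S x 0) :
    ∃ Q : AlgebraicCurve.Place K F, (pointPlace (K := K) (cst L E Q)).Maps S
      (S.map (IsScalarTower.toAlgHom K F E) x) 0 := by
  have hc := isConstPlace_of_place P₀
  refine ⟨centreOf P₀.val.sub, ?_⟩
  obtain ⟨c, hc1, hc2⟩ := hx
  set Q := centreOf (K := K) P₀.val.sub with hQ
  have hmem : ∀ f : F, f ∈ P₀.val.sub → algebraMap F E f ∈ (cst L E Q).toValuationSubring := by
    intro f hf
    rcases eq_or_ne f 0 with rfl | hf0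
    · rw [map_zero]; exact zero_mem _
    refine (mem_iff_ord _ ((_root_.map_ne_zero _).mpr hf0)).mpr ?_
    rw [ord_cst]
    exact ord_nonneg Q hf
  let ψ : P₀.val.sub →ₐ[K] (pointPlace (K := K) (cst L E Q)).val.sub :=
    { toFun := fun f => ⟨algebraMap F E (f : F), hmem f f.2⟩
      map_one' := Subtype.ext (map_one (algebraMap F E))
      map_mul' := fun f g => Subtype.ext (map_mul (algebraMap F E) (f : F) g)
      map_zero' := Subtype.ext (map_zero (algebraMap F E))
      map_add' := fun f g => Subtype.ext (map_add (algebraMap F E) (f : F) g)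
      commutes' := fun k => Subtype.ext (IsScalarTower.algebraMap_apply K F E k).symm }
  refine ⟨S.map ψ c, ?_, ?_⟩
  · rw [← hc1, Setting.map_map, Setting.map_map]; rfl
  · rw [Setting.map_map, ← map_zero (S.map (Algebra.ofId K L)), ← hc2, Setting.map_map]
    refine congrArg (fun φ : P₀.val.sub →ₐ[K] L => S.map φ c) (AlgHom.ext fun f => ?_)
    show valAtP (cst L E Q) ⟨algebraMap F E (f : F), hmem f f.2⟩ = algebraMap K L (P₀.hom f)
    refine valAtP_eq_of_sub_mem _ _ ?_
    rw [← IsScalarTower.algebraMap_apply K L E, IsScalarTower.algebraMap_apply K F E, ← map_sub]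
    have h1 : (f : F) - algebraMap K F (P₀.hom f) ∈ P₀.val.sub.nonunits := by
      rw [place_hom_eq]
      exact sub_valueA_mem K P₀.val.sub f
    rcases eq_or_ne ((f : F) - algebraMap K F (P₀.hom f)) 0 with h0 | h0
    · rw [h0, map_zero]; exact zero_mem _
    refine mem_ordGe_of_le _ ?_
    rw [ord_cst]
    exact (ord_pos_iff Q h0).mpr h1

theorem finite_cubeDiv (a b : S.Pt L) (x : S.Pt F) :
    (Function.support fun P : AlgebraicCurve.Place L E => P.ord (B.cube (S.map (inL K L E) a)
      (S.map (inL K L E) b) (S.map (IsScalarTower.toAlgHom K F E) x) (pointVal P))).Finite := by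
  refine Set.Finite.subset ((finite_range_cube B (S.map (inL K L E) a) (S.map (inL K L E) b)
    (S.map (IsScalarTower.toAlgHom K F E) x)).biUnion fun v _ => finite_support (K := L) v) ?_
  intro P hP
  rw [Set.mem_iUnion₂]
  refine ⟨_, Set.mem_range_self (pointVal P), ?_⟩
  rw [Function.mem_support] at hP
  rw [Set.mem_ofPred_eq]
  exact hP

variable (E) in
/-- The divisor of the cube expression. -/
def cubeDiv (a b : S.Pt L) (x : S.Pt F) : Divisor L E :=
  Finsupp.ofSupportFinite _ (finite_cubeDiv B a b x)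

theorem cubeDiv_apply (a b : S.Pt L) (x : S.Pt F) (P : AlgebraicCurve.Place L E) :
    cubeDiv E B a b x P = P.ord (B.cube (S.map (inL K L E) a)
      (S.map (inL K L E) b) (S.map (IsScalarTower.toAlgHom K F E) x) (pointVal P)) := by
  rw [cubeDiv, Finsupp.ofSupportFinite_coe]

theorem cubeDiv_eq_ord (a b : S.Pt L) (x : S.Pt F) {A : ValuationSubring L} [IsConstPlace K A]
    {Q : AlgebraicCurve.Place K F} {lam : L} (hlam : lam ≠ 0) {z : E} (hz : z ≠ 0)
    (hzv : ∀ (W : ValuationSubring E) [IsConstPlace K W],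
      W.comap (algebraMap L E) = A → centre K F W = Q → ∀ V : Val K E, W ≤ V.sub →
        V.sub.valuation (B.cube (S.map (inL K L E) a) (S.map (inL K L E) b)
          (S.map (IsScalarTower.toAlgHom K F E) x) V) =
        V.sub.valuation (algebraMap L E lam * z))
    {P : AlgebraicCurve.Place L E} (hP : spec K F A P = Q) :
    cubeDiv E B a b x P = P.ord z := by
  have hl : algebraMap L E lam ≠ 0 := (_root_.map_ne_zero _).mpr hlam
  rw [cubeDiv_apply, ord_eq_of_valuation_eq P (B.cube_ne_zero _ _ _ _) (mul_ne_zero hl hz)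
    (hzv (specVal A P) (comap_specVal A P) hP (pointVal P) (specVal_le A P)),
    P.ord_mul hl hz, ord_eq_zero_of_isAlgebraic (isAlgebraic_algebraMap lam) P, zero_add]

/-- The degree is zero. -/
theorem degree_cubeDiv (a b : S.Pt L) (x : S.Pt F) (A : ValuationSubring L) [IsConstPlace K A]
    (h0 : RedZero A a ∨ RedZero A b) : Divisor.degree (cubeDiv E B a b x) = 0 := by
  obtain ⟨G⟩ := exists_gaussRed (K := K) (F₀ := F) (E := E) A
  obtain ⟨lam, hlam, e₀, he₀, hQ⟩ := exists_localScale B A G a b x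
  set D := cubeDiv E B a b x with hD
  have hsum : ∀ Q, ∑ P ∈ D.support.filter (fun P => spec K F A P = Q), D P = Q.ord e₀ := by
    intro Q
    obtain ⟨z, hz, hzo, hzv⟩ := hQ Q
    have hz0 : (z : E) ≠ 0 := fun h => hz (by rw [show z = 0 from Subtype.ext h, map_zero])
    have hord : ∀ P, spec K F A P = Q → D P = P.ord (z : E) := fun P hP =>
      cubeDiv_eq_ord B a b x hlam hz0 hzv hP
    rw [← hzo h0, ← G.ord_red Q z hz D.support fun P hP h =>
      Finsupp.mem_support_iff.mpr (by rw [hord P hP]; exact h)]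
    exact Finset.sum_congr rfl fun P hP => hord P (Finset.mem_filter.mp hP).2
  have hdeg₀ := degree_div (K := K) e₀
  set T := D.support.image (spec K F A) ∪ (div K e₀).support with hT
  rw [degree_eq_sum D D.support subset_rfl,
    ← Finset.sum_fiberwise_of_maps_to (t := T) (g := spec K F A)
      fun P hP => Finset.mem_union_left _ (Finset.mem_image_of_mem _ hP)]
  rw [degree_eq_sum (div K e₀) T Finset.subset_union_right] at hdeg₀
  refine Eq.trans (Finset.sum_congr rfl fun Q _ => ?_) hdeg₀
  simp only [deg_eq_one, Nat.cast_one, mul_one]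
  rw [hsum Q]
  rfl

/-- An effective divisor in the class has total `E₀ Q` on the disc of `Q`. -/
theorem sum_disc_eq (a b : S.Pt L) (x : S.Pt F) {E₀ : Divisor K F} (hE₀ : 0 ≤ E₀)
    (hE₀l : ell K E₀ = 1) {f : E} (hf : f ≠ 0) (N : Divisor L E) (hN0 : 0 ≤ N)
    (hN : N = div L f + cubeDiv E B a b x + cstDiv L E E₀) (A : ValuationSubring L)
    [IsConstPlace K A] (h0 : RedZero A a ∨ RedZero A b) (Q : AlgebraicCurve.Place K F) :
    ∑ P ∈ N.support.filter (fun P => spec K F A P = Q), N P = E₀ Q := by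
  obtain ⟨G⟩ := exists_gaussRed (K := K) (F₀ := F) (E := E) A
  obtain ⟨lam, hlam, e₀, he₀, hQ⟩ := exists_localScale B A G a b x
  obtain ⟨mu, hmu, f₁, hf₁, hf₁r⟩ := G.scale f hf
  set φ := G.red f₁ * e₀ with hφ
  have hmE : algebraMap L E mu ≠ 0 := (_root_.map_ne_zero _).mpr hmu
  have hf₁0 : (f₁ : E) ≠ 0 := fun h => hf₁r (by rw [show f₁ = 0 from Subtype.ext h, map_zero])
  have hall : ∀ Q : AlgebraicCurve.Place K F,
      ∑ P ∈ N.support.filter (fun P => spec K F A P = Q), N P = Q.ord φ + E₀ Q := by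
    intro Q
    obtain ⟨z, hz, hzo, hzv⟩ := hQ Q
    obtain ⟨π, hπ0, hπ⟩ := exists_uniformizer Q
    obtain ⟨n, hn⟩ := Int.eq_ofNat_of_zero_le (Finsupp.le_def.mp hE₀ Q)
    set y : G.sub := f₁ * z * ⟨_, G.mem_fun π⟩ ^ n with hy
    have hyr : G.red y ≠ 0 := by
      rw [hy, map_mul, map_mul, map_pow, G.red_fun]
      exact mul_ne_zero (mul_ne_zero hf₁r hz) (pow_ne_zero _ hπ0)
    have hz0 : (z : E) ≠ 0 := fun h => hz (by rw [show z = 0 from Subtype.ext h, map_zero])
    have hπE : algebraMap F E π ≠ 0 := (_root_.map_ne_zero _).mpr hπ0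
    have hord : ∀ P, spec K F A P = Q → P.ord (y : E) = N P := fun P hP => by
      have e1 := cubeDiv_eq_ord B a b x hlam hz0 hzv hP
      have e2 : div L f P = P.ord (f₁ : E) := by
        rw [show div L f P = P.ord f from rfl, hf₁, P.ord_mul hmE hf₁0,
          ord_eq_zero_of_isAlgebraic (isAlgebraic_algebraMap mu) P, zero_add]
      have e3 : (n : ℤ) * P.ord (algebraMap F E π) = cstDiv L E E₀ P := by
        by_cases h : ∃ Q' : AlgebraicCurve.Place K F, P = cst L E Q'
        · obtain ⟨Q', rfl⟩ := h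
          rw [spec_cst] at hP
          subst hP
          rw [cstDiv_cst, ord_cst, hπ, mul_one, hn]
        · rw [cstDiv_of_ne E₀ P (not_exists.mp h),
            show P.ord (algebraMap F E π) = 0 from not_not.mp fun h0 => h (exists_eq_cst P h0),
            mul_zero]
      have e4 : (y : E) = (f₁ : E) * (z : E) * (algebraMap F E π) ^ n := by
        rw [hy, MulMemClass.coe_mul, MulMemClass.coe_mul, SubmonoidClass.coe_pow]
      rw [e4, P.ord_mul (mul_ne_zero hf₁0 hz0) (pow_ne_zero _ hπE), P.ord_mul hf₁0 hz0, ord_pow,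
        hN, Finsupp.add_apply, Finsupp.add_apply, e1, e2, e3]
    have h1 := G.ord_red Q y hyr N.support fun P hP h =>
      Finsupp.mem_support_iff.mpr (by rw [← hord P hP]; exact h)
    rw [Finset.sum_congr rfl fun P hP => hord P (Finset.mem_filter.mp hP).2] at h1
    rw [h1, hy, map_mul, map_mul, map_pow, G.red_fun, Q.ord_mul (mul_ne_zero hf₁r hz)
      (pow_ne_zero _ hπ0), Q.ord_mul hf₁r hz, ord_pow, hπ, hzo h0, hφ, Q.ord_mul hf₁r he₀, hn]
    ring
  -- the reduction lies in the space of `E₀`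
  have hφL : φ ∈ riemannRochSpace E₀ := by
    rw [mem_riemannRochSpace']
    intro Q
    refine mem_ordGe_of_le Q ?_
    have h1 := hall Q
    have h2 : 0 ≤ ∑ P ∈ N.support.filter (fun P => spec K F A P = Q), N P :=
      Finset.sum_nonneg fun P _ => Finsupp.le_def.mp hN0 P
    linarith
  obtain ⟨k, hk⟩ : ∃ k : K, φ = algebraMap K F k := by
    have h1 : Module.finrank K (riemannRochSpace E₀) = 1 := by
      have := hE₀l; unfold ell at this; exact_mod_cast this
    have h2 : (⟨1, by simpa using algebraMap_mem_riemannRochSpace hE₀ (1 : K)⟩ :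
        riemannRochSpace E₀) ≠ 0 := fun h => one_ne_zero (congrArg Subtype.val h : (1 : F) = 0)
    obtain ⟨k, hk⟩ := (finrank_eq_one_iff_of_nonzero' _ h2).mp h1 ⟨φ, hφL⟩
    refine ⟨k, ?_⟩
    have h3 := congrArg Subtype.val hk
    simpa [Algebra.smul_def] using h3.symm
  rw [hall Q, hk, FF.ord_eq_zero_of_isAlgebraic (isAlgebraic_algebraMap k) Q, zero_add]

/-- An effective divisor in the class has only constant points. -/
theorem exists_eq_cst_of_mem (a b : S.Pt L) (x : S.Pt F) {E₀ : Divisor K F} (hE₀ : 0 ≤ E₀)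
    (hE₀l : ell K E₀ = 1) {f : E} (hf : f ≠ 0) (N : Divisor L E) (hN0 : 0 ≤ N)
    (hN : N = div L f + cubeDiv E B a b x + cstDiv L E E₀)
    (hA : ∀ y : L, Transcendental K y → ∃ (A : ValuationSubring L) (_ : IsConstPlace K A),
      y ∈ A.nonunits ∧ (RedZero A a ∨ RedZero A b))
    (P : AlgebraicCurve.Place L E) (hP : P ∈ N.support) :
    ∃ Q : AlgebraicCurve.Place K F, P = cst L E Q := by
  by_contra hc
  push Not at hc
  have hinf := infinite_place K F
  obtain ⟨Q₁, hQ₁⟩ := Infinite.exists_notMem_finset E₀.support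
  rw [Finsupp.notMem_support_iff] at hQ₁
  obtain ⟨z₁, hz₁, -, hzc⟩ := exists_centred Q₁
  have hmemA : ∀ g : F, algebraMap F E g ∈ P.toValuationSubring := fun g => by
    rcases eq_or_ne g 0 with rfl | hg
    · rw [map_zero]; exact zero_mem _
    · refine (mem_iff_ord P ((_root_.map_ne_zero _).mpr hg)).mpr (le_of_eq (not_not.mp fun h => ?_))
      obtain ⟨Q, hQ⟩ := exists_eq_cst (K := K) (F₀ := F) P (Ne.symm h)
      exact hc Q hQ
  let pt : F →ₐ[K] L :=
    { toRingHom := (valAtP P).comp
        ((algebraMap F E).codRestrict P.toValuationSubring.toSubring hmemA)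
      commutes' := fun k => by
        refine Eq.trans ?_ (valAtP_const (E := E) P (c := algebraMap K L k))
        exact congrArg (valAtP P) (Subtype.ext (by
          show algebraMap F E (algebraMap K F k) = algebraMap L E (algebraMap K L k)
          rw [← IsScalarTower.algebraMap_apply, ← IsScalarTower.algebraMap_apply])) }
  have hy : Transcendental K (pt z₁) := fun h =>
    hz₁ ((isAlgebraic_algHom_iff pt pt.toRingHom.injective).mp h)
  obtain ⟨A, hAc, hyA, h0⟩ := hA _ hy
  have hspec : spec K F A P = Q₁ := by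
    rw [spec, hzc.mem_nonunits]
    have hv : valAtP P ⟨_, hmemA z₁⟩ = pt z₁ := rfl
    have hB : algebraMap F E z₁ ∈ specVal A P :=
      (mem_specVal A P).mpr ⟨hmemA z₁, hv ▸ ValuationSubring.nonunits_subset hyA⟩
    rw [mem_nonunits_specVal A P hB]
    exact hyA
  have h1 := sum_disc_eq B a b x hE₀ hE₀l hf N hN0 hN A h0 Q₁
  rw [hQ₁] at h1
  exact Finsupp.mem_support_iff.mp hP ((Finset.sum_eq_zero_iff_of_nonneg
    fun P' _ => Finsupp.le_def.mp hN0 P').mp h1 P (Finset.mem_filter.mpr ⟨hP, hspec⟩))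

/-- The divisor of the cube expression is principal. -/
theorem exists_divFunction (a b : S.Pt L) (x : S.Pt F)
    (hA : ∀ y : L, Transcendental K y → ∃ (A : ValuationSubring L) (_ : IsConstPlace K A),
      y ∈ A.nonunits ∧ (RedZero A a ∨ RedZero A b))
    (hA₀ : ∃ (A : ValuationSubring L) (_ : IsConstPlace K A), RedZero A a ∨ RedZero A b) :
    ∃ f : E, f ≠ 0 ∧ ∀ P : AlgebraicCurve.Place L E, P.ord (B.cube (S.map (inL K L E) a)
      (S.map (inL K L E) b) (S.map (IsScalarTower.toAlgHom K F E) x) (pointVal P) * f) = 0 := by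
  obtain ⟨E₀, hE₀, hE₀l, hE₀d⟩ := exists_genus_divisor K F
  obtain ⟨A, hAc, h0⟩ := hA₀
  have hell : 0 < ell L (cubeDiv E B a b x + cstDiv L E E₀) := by
    have h1 := riemann_inequality (cubeDiv E B a b x + cstDiv L E E₀)
    rw [ell_zero, map_add, degree_cubeDiv B a b x A h0, degree_cstDiv, hE₀d] at h1
    have h2 := genus_le K F L E
    omega
  obtain ⟨f, hf, hN⟩ := exists_ne_zero_of_ell_pos hell
  set N : Divisor L E := div L f + cubeDiv E B a b x + cstDiv L E E₀ with hNdef
  have hN0 : 0 ≤ N := by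
    rw [hNdef, add_assoc, add_comm]
    exact hN
  refine ⟨f, hf, fun P => ?_⟩
  rw [P.ord_mul (B.cube_ne_zero _ _ _ _) hf, ← cubeDiv_apply]
  suffices h : N P = cstDiv L E E₀ P by
    rw [hNdef, Finsupp.add_apply, Finsupp.add_apply, show div L f P = P.ord f from rfl] at h
    omega
  by_cases h : ∃ Q : AlgebraicCurve.Place K F, P = cst L E Q
  · obtain ⟨Q, rfl⟩ := h
    rw [cstDiv_cst, ← sum_disc_eq B a b x hE₀ hE₀l hf N hN0 hNdef A h0 Q]
    refine (Finset.sum_eq_single (cst L E Q) (fun P' hP' hne => ?_) fun hn => ?_).symm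
    · rw [Finset.mem_filter] at hP'
      obtain ⟨Q', rfl⟩ := exists_eq_cst_of_mem B a b x hE₀ hE₀l hf N hN0 hNdef hA P' hP'.1
      rw [spec_cst] at hP'
      exact absurd (by rw [hP'.2]) hne
    · rw [Finset.mem_filter, not_and] at hn
      exact Finsupp.notMem_support_iff.mp fun hm => hn hm (spec_cst A Q)
  · rw [cstDiv_of_ne E₀ P (not_exists.mp h)]
    exact Finsupp.notMem_support_iff.mp fun hm => h (exists_eq_cst_of_mem B a b x hE₀ hE₀l hf N hN0 hNdef hA P hm)

/-- **Rigidity.** -/
theorem qprin_cube_constExt (a b : S.Pt L) (x : S.Pt F) (P₀ : Place K F K) (hx : P₀.Maps S x 0)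
    (hA : ∀ y : L, Transcendental K y → ∃ (A : ValuationSubring L) (_ : IsConstPlace K A),
      y ∈ A.nonunits ∧ (RedZero A a ∨ RedZero A b))
    (hA₀ : ∃ (A : ValuationSubring L) (_ : IsConstPlace K A), RedZero A a ∨ RedZero A b) :
    QPrin (B.cube (S.map (inL K L E) a) (S.map (inL K L E) b)
      (S.map (IsScalarTower.toAlgHom K F E) x)) := by
  set γ := B.cube (S.map (inL K L E) a) (S.map (inL K L E) b)
    (S.map (IsScalarTower.toAlgHom K F E) x) with hγ
  have hγ0 : ∀ W, γ W ≠ 0 := B.cube_ne_zero _ _ _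
  obtain ⟨f, hf, hord⟩ := exists_divFunction (E := E) B a b x hA hA₀
  obtain ⟨Q₀, hQ₀⟩ := exists_origin (L := L) (E := E) P₀ x hx
  set P := cst L E Q₀ with hP
  obtain ⟨c, hc, c', hc', H⟩ := B.placeRel_cube (pointPlace (K := K) P) (pointPlace_maps_const P a)
    (pointPlace_maps_const P b) hQ₀
  -- the constant
  set ρ : E := f * c with hρ
  have hρ0 : ρ ≠ 0 := mul_ne_zero hf hc
  have hρP : P.ord ρ = 0 := by
    obtain ⟨r, hr, h1, -⟩ := H Val.triv
    have h2 : ((pointPlace (K := K) P).compVal Val.triv).sub = P.toValuationSubring :=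
      PlaceRel.triv_compVal _
    have h4 : (pointPlace (K := K) P).compVal Val.triv = pointVal P := Val.eq_of_sub_eq h2
    rw [h4] at h1
    have hr0 := (pointPlace (K := K) P).coe_ne_zero hr
    have h3 := ord_eq_of_valuation_eq P (hγ0 _) (mul_ne_zero hc hr0) h1
    have h5 : P.ord (r : E) = 0 := by
      obtain ⟨hi, -⟩ := valAtP_inv P (f := (r : E)) r.2 hr
      have h6 := ord_nonneg P (r.2 : (r : E) ∈ P.toValuationSubring)
      have h7 := ord_nonneg P hi
      rw [P.ord_inv] at h7
      omega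
    have h6 := hord P
    rw [P.ord_mul (hγ0 _) hf] at h6
    rw [P.ord_mul hc hr0, h5, add_zero] at h3
    rw [hρ, P.ord_mul hf hc]
    omega
  have hρm : ρ ∈ P.toValuationSubring := (mem_iff_ord P hρ0).mpr hρP.ge
  have hρv : valAtP P ⟨ρ, hρm⟩ ≠ 0 := by
    intro h
    have h1 := sub_valAtP_mem P hρm
    rw [h, map_zero, sub_zero] at h1
    have := le_ord_of_mem_ordGe P hρ0 h1
    omega
  set cL : L := valAtP P ⟨ρ, hρm⟩ * c'⁻¹ with hcL
  have hcL0 : cL ≠ 0 := mul_ne_zero hρv (inv_ne_zero hc')
  have hlam : algebraMap L E cL ≠ 0 := (_root_.map_ne_zero _).mpr hcL0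
  refine ⟨1, one_pos, algebraMap L E cL * f⁻¹, mul_ne_zero hlam (inv_ne_zero hf), fun V => ?_⟩
  rw [pow_one]
  -- refine to residue field `K`
  obtain ⟨W, hWV, hW⟩ := exists_isConstPlace_le (K := K) V.sub V.algebraMap_mem
  set A := W.comap (algebraMap L E) with hA'
  have hAc : IsConstPlace K A := isConstPlace_comap (K := K) W
  obtain ⟨G⟩ := exists_gaussRed (K := K) (F₀ := F) (E := E) A
  obtain ⟨lam, hlam', e₀, -, hQ⟩ := exists_localScale B A G a b x
  obtain ⟨mu, hmu, f₁, hf₁, hf₁r⟩ := G.scale f hf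
  have hlE : algebraMap L E lam ≠ 0 := (_root_.map_ne_zero _).mpr hlam'
  have hmE : algebraMap L E mu ≠ 0 := (_root_.map_ne_zero _).mpr hmu
  have hf₁0 : (f₁ : E) ≠ 0 := fun h => hf₁r (by rw [show f₁ = 0 from Subtype.ext h, map_zero])
  -- `γ · f` is the constant `lam · mu` at every valuation ring with residue field `K` over `A`
  have key : ∀ (W' : ValuationSubring E) [IsConstPlace K W'], W'.comap (algebraMap L E) = A →
      ∀ V' : Val K E, W' ≤ V'.sub →
        V'.sub.valuation (γ V' * f) = V'.sub.valuation (algebraMap L E (lam * mu)) := by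
    intro W' _ hW' V' hV'
    obtain ⟨z, hz, -, hzv⟩ := hQ (centre K F W')
    have hz0 : (z : E) ≠ 0 := fun h => hz (by rw [show z = 0 from Subtype.ext h, map_zero])
    have hy : ∀ P', spec K F A P' = centre K F W' → P'.ord ((z * f₁ : G.sub) : E) = 0 := by
      intro P' hP'
      have e1 := ord_eq_of_valuation_eq P' (hγ0 _) (mul_ne_zero hlE hz0)
        (hzv (specVal A P') (comap_specVal A P') hP' (pointVal P') (specVal_le A P'))
      have e2 := hord P'
      rw [P'.ord_mul (hγ0 _) hf, hf₁, P'.ord_mul hmE hf₁0, e1, P'.ord_mul hlE hz0,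
        ord_eq_zero_of_isAlgebraic (isAlgebraic_algebraMap lam) P',
        ord_eq_zero_of_isAlgebraic (isAlgebraic_algebraMap mu) P', zero_add, zero_add] at e2
      show P'.ord ((z : E) * (f₁ : E)) = 0
      rw [P'.ord_mul hz0 hf₁0]
      exact e2
    have hu := (G.regular_unit (centre K F W') (z * f₁)
      (by rw [map_mul]; exact mul_ne_zero hz hf₁r) hy) W' hW' rfl
    have hu' : V'.sub.valuation ((z : E) * (f₁ : E)) = 1 := by
      have h1 : V'.sub.valuation ((z : E) * (f₁ : E)) = V'.sub.valuation 1 :=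
        valuation_eq_of_le hV' (mul_ne_zero hz0 hf₁0) one_ne_zero (by rw [map_one]; exact hu)
      rwa [map_one] at h1
    rw [map_mul] at hu'
    rw [map_mul, hzv W' hW' rfl V' hV', hf₁, map_mul (algebraMap L E), map_mul, map_mul, map_mul,
      mul_mul_mul_comm, hu', mul_one]
  have hW2 := key W rfl V hWV
  -- compare at the origin
  set W₀ := (pointPlace (K := K) P).compVal (constVal A) with hW₀
  have hW₀e : W₀.sub = specVal A P := compVal_pointPlace P A
  obtain ⟨r, hr, h1, h2⟩ := H (constVal A)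
  have hr0 := (pointPlace (K := K) P).coe_ne_zero hr
  have h3 := key (specVal A P) (comap_specVal A P) W₀ hW₀e.ge
  have hδ : B.cube a b 0 (constVal A) = 1 := B.cube_zero_right a b _
  rw [hδ, map_one] at h2
  rw [← hγ] at h1
  rw [map_mul, h1, map_mul] at h3
  have h4 : W₀.sub.valuation (ρ * (r : E)) = W₀.sub.valuation (algebraMap L E (lam * mu)) := by
    rw [← h3, hρ, map_mul, map_mul]
    ac_rfl
  have hrP : valAtP P ⟨(r : E), r.2⟩ ≠ 0 := hr
  set s : (pointPlace (K := K) P).val.sub := ⟨ρ, hρm⟩ * r with hs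
  set t : (pointPlace (K := K) P).val.sub :=
    ⟨algebraMap L E (lam * mu), P.algebraMap_mem' _⟩ with ht
  have hs0 : (pointPlace (K := K) P).hom s ≠ 0 := by
    rw [hs, map_mul]; exact mul_ne_zero hρv hr
  have ht0 : (pointPlace (K := K) P).hom t = lam * mu := valAtP_const P
  have h5 := ((pointPlace (K := K) P).valuation_compVal_eq_iff (r := s) (s := t) hs0
    (by rw [ht0]; exact mul_ne_zero hlam' hmu) (constVal A)).mp h4
  rw [hs, map_mul, ht0, map_mul] at h5
  replace h5 : A.valuation (valAtP P ⟨ρ, hρm⟩) * A.valuation (valAtP P ⟨(r : E), r.2⟩) =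
      A.valuation (lam * mu) := h5
  replace h2 : 1 = A.valuation (c' * valAtP P ⟨(r : E), r.2⟩) := h2
  have h6 : A.valuation cL = A.valuation (lam * mu) := by
    rw [← h5, hcL, map_mul]
    congr 1
    rw [map_inv₀]
    refine inv_eq_of_mul_eq_one_right ?_
    rw [map_mul] at h2
    exact h2.symm
  have h7 : W.valuation (algebraMap L E cL) = W.valuation (algebraMap L E (lam * mu)) := by
    rw [Val.valuation_eq_iff_div_mem _ hcL0 (mul_ne_zero hlam' hmu)] at h6
    rw [Val.valuation_eq_iff_div_mem _ hlam ((_root_.map_ne_zero _).mpr (mul_ne_zero hlam' hmu)),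
      ← map_div₀, ← map_div₀]
    exact h6
  have h8 := valuation_eq_of_le hWV hlam ((_root_.map_ne_zero _).mpr (mul_ne_zero hlam' hmu)) h7
  rw [map_mul, ← h8, ← eq_mul_inv_iff_mul_eq₀ ((Valuation.ne_zero_iff _).mpr hf), ← map_inv₀,
    ← map_mul] at hW2
  exact hW2

end Fermat.Agent.AV

end
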